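import Fermat.Agent.S24Lib.GenusComp
import Fermat.Prelude.Def_ModularCurve_LaurentCoeff

/-!
# Identification of the function field of `X₀(N)` with the field of `Γ₀(N)`-invariants
-/

set_option autoImplicit false
set_option linter.unusedSectionVars false
set_option linter.style.haveILetI false

namespace Fermat.Agent.S24Lib

open UpperHalfPlane hiding I
open HahnSeries ModularCurve WithZero AlgebraicCurve IntermediateField
open scoped MatrixGroups Pointwise Manifold
open Fermat.Agent.ModFn Fermat.Agent.FF Fermat.Agent.Gam0 Fermat.Agent.Comb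

section Gens

variable (K : Type*) [Field K]

/-- `qExpand` as a `K`-algebra homomorphism -/
noncomputable def qE (m : ℕ) [NeZero m] : LaurentSeries K →ₐ[K] LaurentSeries K where
  __ := qExpand K m
  commutes' r := by
    change qExpand K m (algebraMap K (LaurentSeries K) r) = algebraMap K (LaurentSeries K) r
    rw [algebraMap_laurentSeries_eq_single, qExpand_single, mul_zero]

@[simp] theorem qE_apply (m : ℕ) [NeZero m] (f : LaurentSeries K) : qE K m f = qExpand K m f := rfl

/-- generators of the function field -/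
def gensK (N : ℕ) : Set (LaurentSeries K) :=
  {x | ∃ (d : ℕ) (_ : NeZero d), d ∣ N ∧ x = qExpand K d (jqModC K)}

variable [Algebra ℚ K]

theorem coeffEmb_qExpand_jq (d : ℕ) [NeZero d] :
    coeffEmb K (qExpand ℚ d jq) = qExpand K d (jqModC K) := by
  rw [coeffEmb, ← jqModC_rat, coeffMap_qExpand, coeffMap_jqModC]

/-- `laurentBaseChange` of the full modular function field is generated by the `j(q^d)`. -/
theorem laurentBaseChange_eq (N : ℕ) :
    laurentBaseChange K (modularFunctionFieldFull N) = IntermediateField.adjoin K (gensK K N) := by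
  apply le_antisymm
  · rw [laurentBaseChange, IntermediateField.adjoin_le_iff]
    rintro _ ⟨x, hx, rfl⟩
    have h1 : x ∈ Subfield.closure (Set.range (algebraMap ℚ (LaurentSeries ℚ)) ∪
      divisorExpansions N) := hx
    clear hx
    induction h1 using Subfield.closure_induction with
    | mem y hy =>
      rcases hy with ⟨a, rfl⟩ | ⟨d, hd, hdN, rfl⟩
      · have : coeffEmb K (algebraMap ℚ (LaurentSeries ℚ) a) =
            algebraMap K (LaurentSeries K) (algebraMap ℚ K a) := by
          rw [algebraMap_laurentSeries_eq_single, algebraMap_laurentSeries_eq_single, coeffEmb,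
            coeffMap_single]
        rw [this]
        exact IntermediateField.algebraMap_mem _ _
      · rw [coeffEmb_qExpand_jq]
        exact IntermediateField.subset_adjoin _ _ ⟨d, hd, hdN, rfl⟩
    | one => simp
    | add x y _ _ hx hy => simpa using add_mem hx hy
    | neg x _ hx => simpa using neg_mem hx
    | inv x _ hx => simpa using inv_mem hx
    | mul x y _ _ hx hy => simpa using mul_mem hx hy
  · rw [IntermediateField.adjoin_le_iff]
    rintro _ ⟨d, hd, hdN, rfl⟩
    rw [← coeffEmb_qExpand_jq]
    exact coeffEmb_mem_laurentBaseChange K (jqd_mem_full N hdN)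

end Gens

section Embedding

variable (K : Type*) [Field K] [Algebra K ℂ] [IsAlgClosed K] (M : ℕ) [NeZero M]
variable (L : Type*) [Field L] [Algebra (modR K M) L] [IsFractionRing (modR K M) L]
  [Algebra K L] [IsScalarTower K (modR K M) L]

/-- `q`-expansion on the field -/
noncomputable def qexpL : L →ₐ[K] LaurentSeries K :=
  IsFractionRing.liftAlgHom (qexpR_injective K M)

theorem qexpL_algebraMap (f : modR K M) :
    qexpL K M L (algebraMap (modR K M) L f) = qexpR K M f :=
  IsFractionRing.lift_algebraMap (qexpR_injective K M) f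

/-- the element `j(dτ)` of `L` -/
noncomputable def jdL (d : ℕ) [NeZero d] (h : d ∣ M) : L :=
  algebraMap (modR K M) L (jdR K M d h)

theorem qexpL_jdL (d : ℕ) [NeZero d] (h : d ∣ M) :
    qexpL K M L (jdL K M L d h) = qE K M (qExpand K d (jqModC K)) := by
  rw [jdL, qexpL_algebraMap, qexpR_jdR, qE_apply, qExpand_qExpand]

theorem qexpL_jL : qexpL K M L (jL K M L) = qE K M (jqModC K) := by
  rw [jL, qexpL_algebraMap, qexpR_jR, qE_apply]

/-- the generators in `L` -/
def gensL (N : ℕ) : Set L := {x | ∃ (d : ℕ) (_ : NeZero d) (h : d ∣ M), d ∣ N ∧ x = jdL K M L d h}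

theorem image_gensL {N : ℕ} (hNM : N ∣ M) :
    qexpL K M L '' gensL K M L N = qE K M '' gensK K N := by
  ext x
  constructor
  · rintro ⟨_, ⟨d, hd, h, hdN, rfl⟩, rfl⟩
    exact ⟨_, ⟨d, hd, hdN, rfl⟩, (qexpL_jdL K M L d h).symm⟩
  · rintro ⟨_, ⟨d, hd, hdN, rfl⟩, rfl⟩
    exact ⟨_, ⟨d, hd, hdN.trans hNM, hdN, rfl⟩, qexpL_jdL K M L d _⟩

theorem map_adjoin_gensL {N : ℕ} (hNM : N ∣ M) :
    (IntermediateField.adjoin K (gensL K M L N)).map (qexpL K M L) =
      (IntermediateField.adjoin K (gensK K N)).map (qE K M) := by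
  rw [IntermediateField.adjoin_map, IntermediateField.adjoin_map, image_gensL K M L hNM]

/-- **Galois theory**: the functions invariant under `Γ₀(N)` are generated by the `j(dτ)`. -/
theorem mem_adjoin_gensL {N : ℕ} [NeZero N] (hNM : N ∣ M) {y : L}
    (hy : ∀ g ∈ CongruenceSubgroup.Gamma0 N, phi K M L g y = y) :
    y ∈ IntermediateField.adjoin K (gensL K M L N) := by
  haveI hG := isGaloisGroup_range (phi K M L) (phi_jL K M L) (fun _ hy => mem_adjoin_jL K M L hy)
  have hle : K⟮jL K M L⟯ ≤ IntermediateField.adjoin K (gensL K M L N) := by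
    rw [IntermediateField.adjoin_simple_le_iff]
    apply IntermediateField.subset_adjoin
    refine ⟨1, inferInstance, one_dvd M, one_dvd N, ?_⟩
    rw [jdL, jdR_one]
    rfl
  let E : IntermediateField K⟮jL K M L⟯ L := IntermediateField.extendScalars hle
  have h1 : FixedPoints.intermediateField (fixingSubgroup (phi K M L).range (E : Set L)) = E :=
    IsGaloisGroup.fixedPoints_of_isGaloisGroup (phi K M L).range K⟮jL K M L⟯ L _ E
  have h2 : y ∈ E := by
    rw [← h1]
    rintro ⟨⟨_, g, rfl⟩, hg⟩
    apply hy
    apply mem_Gamma0_of_actR_jdR K M hNM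
    apply IsFractionRing.injective (modR K M) L
    rw [← phi_algebraMap]
    rw [mem_fixingSubgroup_iff] at hg
    have h3 : jdL K M L N hNM ∈ (E : Set L) := by
      change jdL K M L N hNM ∈ IntermediateField.adjoin K (gensL K M L N)
      exact IntermediateField.subset_adjoin _ _ ⟨N, inferInstance, hNM, dvd_rfl, rfl⟩
    exact hg _ h3
  exact h2

theorem phi_of_mem_adjoin_gensL {N : ℕ} [NeZero N] {y : L}
    (hy : y ∈ IntermediateField.adjoin K (gensL K M L N))
    {g : SL(2, ℤ)} (hg : g ∈ CongruenceSubgroup.Gamma0 N) : phi K M L g y = y := by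
  have h1 : IntermediateField.adjoin K (gensL K M L N) ≤
      IntermediateField.fixedField (Subgroup.zpowers (phi K M L g)) := by
    rw [IntermediateField.adjoin_le_iff]
    rintro _ ⟨d, hd, h, hdN, rfl⟩
    rintro ⟨_, k, rfl⟩
    change (phi K M L g ^ k) (jdL K M L d h) = jdL K M L d h
    rw [← map_zpow, jdL, phi_algebraMap, actR_jdR K M d hdN h (zpow_mem hg k)]
  exact h1 hy ⟨phi K M L g, Subgroup.mem_zpowers _⟩

theorem genus_eq_of_algHom {N : ℕ} [NeZero N] {F : Type*} [Field F] [Algebra K F]
    [HasCanonicalDivisor (K := K) (F := F)] (hNM : N ∣ M) (hM : 2 ≤ M)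
    (ι : F →ₐ[K] L) (jF : F) (hj : ι jF = jL K M L)
    (h1 : ∀ y ∈ IntermediateField.adjoin K (gensL K M L N), y ∈ Set.range ι)
    (h2 : ∀ z : F, ι z ∈ IntermediateField.adjoin K (gensL K M L N)) :
    (genus K F : ℚ) = genusFormula N := by
  letI : Algebra F L := ι.toRingHom.toAlgebra
  haveI : IsScalarTower K F L := IsScalarTower.of_algebraMap_eq fun a => (ι.commutes a).symm
  refine genus_eq_genusFormula K M L (N := N) (F := F) hNM hM jF hj ?_ ?_
  · intro y hy
    exact h1 y (mem_adjoin_gensL K M L hNM hy)
  · intro g hg z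
    exact phi_of_mem_adjoin_gensL K M L (N := N) (h2 z) hg

end Embedding

section Final

variable (K : Type*) [Field K] [Algebra K ℂ] [IsAlgClosed K] (M : ℕ) [NeZero M]
variable (L : Type*) [Field L] [Algebra (modR K M) L] [IsFractionRing (modR K M) L]
  [Algebra K L] [IsScalarTower K (modR K M) L]
variable [Algebra ℚ K]
variable (N : ℕ) [NeZero N]

theorem exists_embedding (hNM : N ∣ M) :
    ∃ e : laurentBaseChange K (modularFunctionFieldFull N) ≃ₐ[K]
        IntermediateField.adjoin K (gensL K M L N),
      ∀ f : laurentBaseChange K (modularFunctionFieldFull N),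
        qexpL K M L (e f : L) = qE K M (f : LaurentSeries K) := by
  have hmap : (laurentBaseChange K (modularFunctionFieldFull N)).map (qE K M) =
      (IntermediateField.adjoin K (gensL K M L N)).map (qexpL K M L) := by
    rw [map_adjoin_gensL K M L hNM, laurentBaseChange_eq]
  refine ⟨(IntermediateField.equivMap _ (qE K M)).trans
    ((IntermediateField.equivOfEq hmap).trans
      (IntermediateField.equivMap _ (qexpL K M L)).symm), ?_⟩
  intro f
  set y := (IntermediateField.equivOfEq hmap) ((IntermediateField.equivMap _ (qE K M)) f) with hy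
  have h1 : ((IntermediateField.equivMap (IntermediateField.adjoin K (gensL K M L N))
      (qexpL K M L)) ((IntermediateField.equivMap (IntermediateField.adjoin K (gensL K M L N))
        (qexpL K M L)).symm y) : LaurentSeries K) = qE K M (f : LaurentSeries K) := by
    rw [AlgEquiv.apply_symm_apply]
    rfl
  exact h1

theorem jqModC_mem_laurentBaseChange :
    jqModC K ∈ laurentBaseChange K (modularFunctionFieldFull N) := by
  rw [laurentBaseChange_eq]
  apply IntermediateField.subset_adjoin
  exact ⟨1, inferInstance, one_dvd N, (qExpand_one_apply _).symm⟩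

theorem genus_laurentBaseChange
    [HasCanonicalDivisor (K := K) (F := laurentBaseChange K (modularFunctionFieldFull N))] :
    (genus K (laurentBaseChange K (modularFunctionFieldFull N)) : ℚ) = genusFormula N := by
  haveI : NeZero (2 * N) := ⟨mul_ne_zero two_ne_zero (NeZero.ne N)⟩
  have hNM : N ∣ 2 * N := dvd_mul_left N 2
  have hM : 2 ≤ 2 * N := by
    have := Nat.pos_of_neZero N
    omega
  obtain ⟨e, he⟩ := exists_embedding K (2 * N) (FractionRing (modR K (2 * N))) N hNM
  refine genus_eq_of_algHom K (2 * N) (FractionRing (modR K (2 * N))) hNM hM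
    ((IntermediateField.adjoin K (gensL K (2 * N) (FractionRing (modR K (2 * N))) N)).val.comp
      e.toAlgHom) ⟨jqModC K, jqModC_mem_laurentBaseChange K N⟩ ?_ ?_ ?_
  · apply (qexpL K (2 * N) (FractionRing (modR K (2 * N)))).toRingHom.injective
    exact (he _).trans (qexpL_jL K (2 * N) _).symm
  · intro y hy
    exact ⟨e.symm ⟨y, hy⟩, congrArg Subtype.val (e.apply_symm_apply ⟨y, hy⟩)⟩
  · intro z
    exact (e z).2

end Final

end Fermat.Agent.S24Lib
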