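import Fermat.Agent.FF.Fiber
import Fermat.Agent.RR.Riemann
import Fermat.Agent.JZ.ModularComm

/-!
# Norm formula and fundamental identity along morphisms of function fields
-/

set_option autoImplicit false
set_option linter.style.haveILetI false

namespace Fermat.Agent.FF

open AlgebraicCurve Fermat.Agent.JZ

section

variable {K F F' : Type*} [Field K] [Field F] [Field F'] [Algebra K F] [Algebra K F']
  [IsAlgClosed K] [IsFnField K F] [IsFnField K F']

/-- norm formula along a finite separable morphism -/
theorem normFormulaAlong (φ : F →ₐ[K] F') (hfin : FiniteAlong K φ)
    (hsep : letI := algebraAlong φ; Algebra.IsSeparable F F') : NormFormulaAlong K φ hfin := by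
  letI := algebraAlong φ
  haveI := isScalarTower_along φ
  haveI : Module.Finite F F' := hfin
  haveI : Algebra.IsSeparable F F' := hsep
  haveI : HasPrincipalDivisors K F' := RR.hasPrincipalDivisors K F'
  exact pushforwardNormFormula

/-- fundamental identity along a finite separable morphism -/
theorem fundamentalIdentityAlong [HasPrincipalDivisors K F'] (φ : F →ₐ[K] F')
    (hfin : FiniteAlong K φ)
    (hsep : letI := algebraAlong φ; Algebra.IsSeparable F F') (hφ : φ.toRingHom.IsIntegral) :
    FundamentalIdentityAlong K φ hφ := by
  letI := algebraAlong φ
  haveI := isScalarTower_along φ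
  haveI : Module.Finite F F' := hfin
  haveI : Algebra.IsSeparable F F' := hsep
  exact fundamentalIdentity

end

/-- The norm inputs in characteristic zero. -/
theorem normInputs (L : Type) [Field L] [IsAlgClosed L] [CharZero L] : NormInputs L where
  norm F F' _ _ _ _ _ _ φ hfin := by
    refine normFormulaAlong φ hfin ?_
    letI := algebraAlong φ
    haveI : Module.Finite F F' := hfin
    haveI : CharZero F := charZero_of_injective_algebraMap (algebraMap L F).injective
    infer_instance
  fund F F' _ _ _ _ _ _ _ φ hφ := by
    have hfin : FiniteAlong L φ := finiteAlong φ
    refine fundamentalIdentityAlong φ hfin ?_ hφ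
    letI := algebraAlong φ
    haveI : Module.Finite F F' := hfin
    haveI : CharZero F := charZero_of_injective_algebraMap (algebraMap L F).injective
    infer_instance

end Fermat.Agent.FF
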