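import Fermat.Agent.S24Lib.Ident
import Mathlib.FieldTheory.Relrank

/-!
# The function field of `X₀(N)`: it is a function field, of degree `ψ(N)` over `K(j)`, generated by
`j` and `j_N`
-/

set_option autoImplicit false
set_option linter.unusedSectionVars false
set_option linter.style.haveILetI false

namespace Fermat.Agent.S24Lib

open UpperHalfPlane hiding I
open HahnSeries ModularCurve WithZero AlgebraicCurve IntermediateField
open scoped MatrixGroups Pointwise Manifold
open Fermat.Agent.ModFn Fermat.Agent.FF Fermat.Agent.Gam0 Fermat.Agent.Comb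

section

variable (K : Type*) [Field K] [Algebra K ℂ] [IsAlgClosed K] (M : ℕ) [NeZero M]
variable (L : Type*) [Field L] [Algebra (modR K M) L] [IsFractionRing (modR K M) L]
  [Algebra K L] [IsScalarTower K (modR K M) L]
variable {N : ℕ} [NeZero N]

/-- **Galois theory**: the functions invariant under `Γ₀(N)` are generated by `j(τ)` and
`j(Nτ)`. -/
theorem mem_adjoin_pair (hNM : N ∣ M) {y : L}
    (hy : ∀ g ∈ CongruenceSubgroup.Gamma0 N, phi K M L g y = y) :
    y ∈ IntermediateField.adjoin K {jL K M L, jdL K M L N hNM} := by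
  haveI hG := isGaloisGroup_range (phi K M L) (phi_jL K M L) (fun _ hy => mem_adjoin_jL K M L hy)
  have hle : K⟮jL K M L⟯ ≤ IntermediateField.adjoin K {jL K M L, jdL K M L N hNM} := by
    rw [IntermediateField.adjoin_simple_le_iff]
    exact IntermediateField.subset_adjoin _ _ (Set.mem_insert _ _)
  let E : IntermediateField K⟮jL K M L⟯ L := IntermediateField.extendScalars hle
  have h1 : FixedPoints.intermediateField (fixingSubgroup (phi K M L).range (E : Set L)) = E :=
    IsGaloisGroup.fixedPoints_of_isGaloisGroup (phi K M L).range K⟮jL K M L⟯ L _ E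
  have h2 : y ∈ E := by
    rw [← h1]
    rintro ⟨⟨_, g, rfl⟩, hg⟩
    apply hy
    apply mem_Gamma0_of_actR_jdR K M hNM
    apply IsFractionRing.injective (modR K M) L
    rw [← phi_algebraMap]
    rw [mem_fixingSubgroup_iff] at hg
    have h3 : jdL K M L N hNM ∈ (E : Set L) := by
      change jdL K M L N hNM ∈ IntermediateField.adjoin K {jL K M L, jdL K M L N hNM}
      exact IntermediateField.subset_adjoin _ _ (Set.mem_insert_of_mem _ rfl)
    exact hg _ h3
  exact h2

theorem adjoin_gensL_eq (hNM : N ∣ M) : IntermediateField.adjoin K (gensL K M L N) =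
    IntermediateField.adjoin K {jL K M L, jdL K M L N hNM} := by
  apply le_antisymm
  · intro y hy
    exact mem_adjoin_pair K M L hNM fun g hg => phi_of_mem_adjoin_gensL K M L hy hg
  · rw [IntermediateField.adjoin_le_iff]
    rintro _ (rfl | rfl)
    · apply IntermediateField.subset_adjoin
      refine ⟨1, inferInstance, one_dvd M, one_dvd N, ?_⟩
      rw [jdL, jdR_one]
      rfl
    · exact IntermediateField.subset_adjoin _ _ ⟨N, inferInstance, hNM, dvd_rfl, rfl⟩

variable {F : Type*} [Field F] [Algebra K F]

include M L in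
theorem isFnField_and_finrank (hNM : N ∣ M) (ι : F →ₐ[K] L) (jF : F) (hj' : ι jF = jL K M L)
    (h1' : ∀ y ∈ IntermediateField.adjoin K (gensL K M L N), y ∈ Set.range ι)
    (h2' : ∀ z : F, ι z ∈ IntermediateField.adjoin K (gensL K M L N)) :
    IsFnField K F ∧ Module.finrank K⟮jF⟯ F = Nat.card (X N) := by
  letI : Algebra F L := ι.toRingHom.toAlgebra
  haveI : IsScalarTower K F L := IsScalarTower.of_algebraMap_eq fun a => (ι.commutes a).symm
  have hj : algebraMap F L jF = jL K M L := hj'
  have hF : ∀ y : L, (∀ g ∈ CongruenceSubgroup.Gamma0 N, phi K M L g y = y) →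
      y ∈ Set.range (algebraMap F L) := by
    intro y hy
    exact h1' y (mem_adjoin_gensL K M L hNM hy)
  have hF' : ∀ g ∈ CongruenceSubgroup.Gamma0 N, ∀ z : F,
      phi K M L g (algebraMap F L z) = algebraMap F L z := by
    intro g hg z
    exact phi_of_mem_adjoin_gensL K M L (N := N) (h2' z) hg
  haveI : CharZero K := charZero_K K
  haveI : IsFnField K L := isFnField_L K M L
  haveI : Algebra.IsIntegral F L := isIntegral_of_invariants (phi K M L) _ hF
  have hjF : Transcendental K jF := by
    have h1 := transcendental_jL K M L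
    rw [← hj] at h1
    exact (transcendental_algebraMap_iff (algebraMap F L).injective).mp h1
  haveI : IsFnField K F := isFnField_of_isIntegral hjF (L := L)
  refine ⟨inferInstance, ?_⟩
  have hker : (phi K M L).ker ≤ CongruenceSubgroup.Gamma0 N := by
    intro γ hγ
    have h1 := ker_phi_le K M L hγ
    rw [CongruenceSubgroup.Gamma0_mem, ZMod.intCast_zmod_eq_zero_iff_dvd] at h1 ⊢
    exact (Int.natCast_dvd_natCast.mpr hNM).trans h1
  -- the functions `j - a`
  have hja : ∀ a : K, algebraMap F L (jF - algebraMap K F a) = jL K M L - algebraMap K L a := by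
    intro a
    rw [map_sub, hj, ← IsScalarTower.algebraMap_apply]
  have hjtr : ∀ a : K, Transcendental K (algebraMap F L (jF - algebraMap K F a)) := by
    intro a
    rw [hja]
    exact transcendental_sub (transcendental_jL K M L) a
  have hjfix : ∀ (a : K) (g), phi K M L g (algebraMap F L (jF - algebraMap K F a)) =
      algebraMap F L (jF - algebraMap K F a) := by
    intro a g
    rw [hja, map_sub, phi_jL, AlgEquiv.commutes]
  have hjL : ∀ (a : K) (y : L), (∀ g, phi K M L g y = y) →
      y ∈ K⟮algebraMap F L (jF - algebraMap K F a)⟯ := by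
    intro a y hy
    rw [hja, adjoin_simple_sub]
    exact mem_adjoin_jL K M L hy
  obtain ⟨τ, -, hτ⟩ := exists_jH_eq (a := algebraMap K ℂ 1) (by simp) (by
    rw [map_one]
    norm_num)
  have hτ' : ordAt (fun z => jH z - algebraMap K ℂ 1) τ = ((1 : ℕ) : ℕ∞) := by rw [hτ]; rfl
  obtain ⟨w, -, hw1, hw2⟩ := exists_place_pt K M L one_pos hτ'
  rw [← hja] at hw1 hw2
  have h2 := ncard_zeros_eq (phi K M L) (hjtr 1) (hjfix 1) (hjL 1) _ hker hF hF' hw1
    (⊥ : Subgroup SL(2, ℤ)) (by
      intro c hc
      rw [Subgroup.mem_bot] at hc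
      rw [hc, map_one, one_smul]) (by
      refine hw2.trans ?_
      rw [Subgroup.map_bot]
      simp)
  replace h2 := h2.trans (card_orbitRel_bot (G := SL(2, ℤ)) (X := X N))
  have h3 := sum_zeros_ord (K := K) (transcendental_sub hjF 1)
  have hfin : (zeros (K := K) (jF - algebraMap K F 1)).Finite := finite_zeros_of_fnField _
  have h4 : ∑ᶠ v ∈ zeros (K := K) (jF - algebraMap K F 1), v.ord (jF - algebraMap K F 1) =
      ∑ᶠ v ∈ zeros (K := K) (jF - algebraMap K F 1), (1 : ℤ) :=
    finsum_mem_congr rfl (fun v hv => ord_eq_one_of_mem_zeros (phi K M L) (hjtr 1) (hjfix 1)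
      (hjL 1) (w := w) (by rw [Nat.cast_one] at hw2; omega) v hv)
  rw [h4, finsum_mem_one_eq hfin, h2, adjoin_simple_sub] at h3
  exact_mod_cast h3.symm

end

section

variable (K : Type*) [Field K] [Algebra K ℂ] [IsAlgClosed K] [Algebra ℚ K]
variable (N : ℕ) [NeZero N]

theorem isFnField_and_finrank_laurent :
    IsFnField K (laurentBaseChange K (modularFunctionFieldFull N)) ∧
      Module.finrank K⟮(⟨jqModC K, jqModC_mem_laurentBaseChange K N⟩ :
        laurentBaseChange K (modularFunctionFieldFull N))⟯
        (laurentBaseChange K (modularFunctionFieldFull N)) = Nat.card (X N) := by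
  obtain ⟨e, he⟩ := exists_embedding K N (FractionRing (modR K N)) N dvd_rfl
  refine isFnField_and_finrank K N (FractionRing (modR K N)) (N := N) dvd_rfl
    ((IntermediateField.adjoin K (gensL K N (FractionRing (modR K N)) N)).val.comp
      e.toAlgHom) ⟨jqModC K, jqModC_mem_laurentBaseChange K N⟩ ?_ ?_ ?_
  · apply (qexpL K N (FractionRing (modR K N))).toRingHom.injective
    exact (he _).trans (qexpL_jL K N _).symm
  · intro y hy
    exact ⟨e.symm ⟨y, hy⟩, congrArg Subtype.val (e.apply_symm_apply ⟨y, hy⟩)⟩
  · intro z
    exact (e z).2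

/-- (E1) -/
theorem isFnField_laurentBaseChange :
    IsFnField K (laurentBaseChange K (modularFunctionFieldFull N)) :=
  (isFnField_and_finrank_laurent K N).1

theorem adjoin_jqModC_le : K⟮jqModC K⟯ ≤ laurentBaseChange K (modularFunctionFieldFull N) := by
  rw [IntermediateField.adjoin_simple_le_iff]
  exact jqModC_mem_laurentBaseChange K N

/-- (E2) -/
theorem relfinrank_laurentBaseChange :
    IntermediateField.relfinrank K⟮jqModC K⟯ (laurentBaseChange K (modularFunctionFieldFull N)) =
      dedekindPsi N := by
  have h1 := (isFnField_and_finrank_laurent K N).2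
  rw [← IntermediateField.relfinrank_top_right, ← IntermediateField.relfinrank_map_map _ _
    (laurentBaseChange K (modularFunctionFieldFull N)).val, IntermediateField.adjoin_map,
    Set.image_singleton, card_X] at h1
  have h2 : (⊤ : IntermediateField K (laurentBaseChange K (modularFunctionFieldFull N))).map
      (laurentBaseChange K (modularFunctionFieldFull N)).val =
      laurentBaseChange K (modularFunctionFieldFull N) := by
    ext x
    constructor
    · rintro ⟨y, -, rfl⟩
      exact y.2
    · intro hx
      exact ⟨⟨x, hx⟩, trivial, rfl⟩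
  rw [h2] at h1
  exact h1

/-- (E3) -/
theorem laurentBaseChange_eq_adjoin_pair :
    laurentBaseChange K (modularFunctionFieldFull N) =
      IntermediateField.adjoin K {jqModC K, qExpand K N (jqModC K)} := by
  apply IntermediateField.map_injective (qE K N)
  have h1 : (laurentBaseChange K (modularFunctionFieldFull N)).map (qE K N) =
      (IntermediateField.adjoin K (gensL K N (FractionRing (modR K N)) N)).map
        (qexpL K N (FractionRing (modR K N))) := by
    rw [map_adjoin_gensL K N _ dvd_rfl, laurentBaseChange_eq]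
  rw [h1, adjoin_gensL_eq K N (FractionRing (modR K N)) dvd_rfl, IntermediateField.adjoin_map,
    IntermediateField.adjoin_map, Set.image_pair, Set.image_pair, qexpL_jL, qexpL_jdL]

end

end Fermat.Agent.S24Lib
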