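import Fermat.Agent.S24Lib.Field

/-!
# The genus of the field of `Γ₀(N)`-invariants
-/

set_option autoImplicit false
set_option linter.unusedSectionVars false
set_option linter.style.haveILetI false

namespace Fermat.Agent.S24Lib

open UpperHalfPlane hiding I
open HahnSeries ModularCurve WithZero AlgebraicCurve IntermediateField
open scoped MatrixGroups Pointwise Manifold
open Fermat.Agent.ModFn Fermat.Agent.FF Fermat.Agent.Gam0 Fermat.Agent.Comb

theorem card_orbitRel_bot {G X : Type*} [Group G] [MulAction G X] :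
    Nat.card (MulAction.orbitRel.Quotient (⊥ : Subgroup G) X) = Nat.card X := by
  symm
  apply Nat.card_congr
  refine Equiv.ofBijective (fun x => Quotient.mk'' x) ⟨?_, ?_⟩
  · intro a b hab
    have h1 := Quotient.exact hab
    obtain ⟨⟨g, hg⟩, hgb⟩ := (MulAction.orbitRel_apply.mp h1)
    rw [Subgroup.mem_bot] at hg
    subst hg
    simpa using hgb.symm
  · intro q
    induction q using Quotient.inductionOn' with
    | h q => exact ⟨q, rfl⟩

section

variable (K : Type*) [Field K] [Algebra K ℂ] [IsAlgClosed K] (M : ℕ) [NeZero M]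
variable (L : Type*) [Field L] [Algebra (modR K M) L] [IsFractionRing (modR K M) L]
  [Algebra K L] [IsScalarTower K (modR K M) L]
variable {N : ℕ} [NeZero N]
variable {F : Type*} [Field F] [Algebra K F] [Algebra F L] [IsScalarTower K F L]

open Classical in
theorem genus_eq_genusFormula (hNM : N ∣ M) (hM : 2 ≤ M) (jF : F)
    (hj : algebraMap F L jF = jL K M L)
    (hF : ∀ y : L, (∀ g ∈ CongruenceSubgroup.Gamma0 N, phi K M L g y = y) →
      y ∈ Set.range (algebraMap F L))
    (hF' : ∀ g ∈ CongruenceSubgroup.Gamma0 N, ∀ z : F,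
      phi K M L g (algebraMap F L z) = algebraMap F L z)
    [HasCanonicalDivisor (K := K) (F := F)] :
    (genus K F : ℚ) = genusFormula N := by
  haveI : CharZero K := charZero_K K
  haveI : IsFnField K L := isFnField_L K M L
  haveI : Algebra.IsIntegral F L := isIntegral_of_invariants (phi K M L) _ hF
  have hjF : Transcendental K jF := by
    have h1 := transcendental_jL K M L
    rw [← hj] at h1
    exact (transcendental_algebraMap_iff (algebraMap F L).injective).mp h1
  haveI : IsFnField K F := isFnField_of_isIntegral hjF (L := L)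
  have hker : (phi K M L).ker ≤ CongruenceSubgroup.Gamma0 N := by
    intro γ hγ
    have h1 := ker_phi_le K M L hγ
    rw [CongruenceSubgroup.Gamma0_mem, ZMod.intCast_zmod_eq_zero_iff_dvd] at h1 ⊢
    exact (Int.natCast_dvd_natCast.mpr hNM).trans h1
  -- the functions `j - a`
  have hja : ∀ a : K, algebraMap F L (jF - algebraMap K F a) = jL K M L - algebraMap K L a := by
    intro a
    rw [map_sub, hj, ← IsScalarTower.algebraMap_apply]
  have hjtr : ∀ a : K, Transcendental K (algebraMap F L (jF - algebraMap K F a)) := by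
    intro a
    rw [hja]
    exact transcendental_sub (transcendental_jL K M L) a
  have hjfix : ∀ (a : K) (g), phi K M L g (algebraMap F L (jF - algebraMap K F a)) =
      algebraMap F L (jF - algebraMap K F a) := by
    intro a g
    rw [hja, map_sub, phi_jL, AlgEquiv.commutes]
  have hjL : ∀ (a : K) (y : L), (∀ g, phi K M L g y = y) →
      y ∈ K⟮algebraMap F L (jF - algebraMap K F a)⟯ := by
    intro a y hy
    rw [hja, adjoin_simple_sub]
    exact mem_adjoin_jL K M L hy
  -- branch points
  have hgen : ∀ a : K, a ∉ ({0, 1728} : Finset K) → ∃ τ : ℍ,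
      ordAt (fun z => jH z - algebraMap K ℂ a) τ = ((1 : ℕ) : ℕ∞) := by
    intro a ha
    simp only [Finset.mem_insert, Finset.mem_singleton, not_or] at ha
    obtain ⟨τ, -, hτ⟩ := exists_jH_eq (a := algebraMap K ℂ a) (by simpa using ha.1) (by
      intro h
      apply ha.2
      apply (algebraMap K ℂ).injective
      rw [h]
      exact (map_ofNat (algebraMap K ℂ) 1728).symm)
    exact ⟨τ, by rw [hτ]; rfl⟩
  have hunr : ∀ a : K, a ∉ ({0, 1728} : Finset K) → ∀ v : Place K F,
      0 < v.ord (jF - algebraMap K F a) → v.ord (jF - algebraMap K F a) = 1 := by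
    intro a ha v hv
    obtain ⟨τ, hτ⟩ := hgen a ha
    obtain ⟨w, -, hw1, hw2⟩ := exists_place_pt K M L one_pos hτ
    rw [← hja] at hw1 hw2
    exact ord_eq_one_of_mem_zeros (phi K M L) (hjtr a) (hjfix a) (hjL a) (w := w)
      (by rw [Nat.cast_one] at hw2; omega) v hv
  -- number of places
  have h0 : (zeros (K := K) (jF - algebraMap K F 0)).ncard =
      orb (X N) (ModularGroup.S * ModularGroup.T) := by
    have h1 : ordAt (fun z => jH z - algebraMap K ℂ 0) rhoH = ((3 : ℕ) : ℕ∞) := by
      simp only [map_zero, sub_zero]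
      rw [ordAt_jH_of_eq_zero jH_rhoH]
      rfl
    obtain ⟨w, hw, hw1, hw2⟩ := exists_place_pt K M L (by norm_num) h1
    rw [← hja] at hw1 hw2
    refine ncard_zeros_eq (phi K M L) (hjtr 0) (hjfix 0) (hjL 0) _ hker hF hF' hw1
      (Subgroup.zpowers (ModularGroup.S * ModularGroup.T)) ?_ ?_
    · intro c hc
      apply hw
      have h2 : Subgroup.zpowers (ModularGroup.S * ModularGroup.T) ≤
          MulAction.stabilizer SL(2, ℤ) rhoH := by
        rw [Subgroup.zpowers_le]
        exact ST_smul_rhoH
      exact h2 hc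
    · refine hw2.trans ?_
      exact_mod_cast le_card_ST K M L hM
  have h1728 : (zeros (K := K) (jF - algebraMap K F 1728)).ncard =
      orb (X N) ModularGroup.S := by
    have h1 : ordAt (fun z => jH z - algebraMap K ℂ 1728) UpperHalfPlane.I = ((2 : ℕ) : ℕ∞) := by
      have h2 : algebraMap K ℂ 1728 = 1728 := map_ofNat (algebraMap K ℂ) 1728
      rw [h2, ordAt_jH_sub_1728 jH_I]
      rfl
    obtain ⟨w, hw, hw1, hw2⟩ := exists_place_pt K M L (by norm_num) h1
    rw [← hja] at hw1 hw2
    refine ncard_zeros_eq (phi K M L) (hjtr 1728) (hjfix 1728) (hjL 1728) _ hker hF hF' hw1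
      (Subgroup.zpowers ModularGroup.S) ?_ ?_
    · intro c hc
      apply hw
      have h2 : Subgroup.zpowers ModularGroup.S ≤
          MulAction.stabilizer SL(2, ℤ) UpperHalfPlane.I := by
        rw [Subgroup.zpowers_le]
        exact S_smul_I
      exact h2 hc
    · refine hw2.trans ?_
      exact_mod_cast le_card_S K M L hM
  have hinf : (zeros (K := K) (jF)⁻¹).ncard = orb (X N) ModularGroup.T := by
    obtain ⟨w, hw, hw1, hw2⟩ := exists_place_inf K M L
    have hji : algebraMap F L jF⁻¹ = (jL K M L)⁻¹ := by rw [map_inv₀, hj]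
    rw [← hji] at hw1 hw2
    refine ncard_zeros_eq (phi K M L) ?_ ?_ ?_ _ hker hF hF' hw1
      (Subgroup.zpowers ModularGroup.T) hw ?_
    · rw [hji]
      exact transcendental_inv (transcendental_jL K M L)
    · intro g
      rw [hji, map_inv₀, phi_jL]
    · intro y hy
      rw [hji, adjoin_simple_inv]
      exact mem_adjoin_jL K M L hy
    · refine hw2.trans ?_
      exact_mod_cast le_card_T K M L
  -- the degree
  have hdeg : Module.finrank K⟮jF⟯ F = Nat.card (X N) := by
    have h1 : (1 : K) ∉ ({0, 1728} : Finset K) := by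
      simp only [Finset.mem_insert, Finset.mem_singleton, not_or]
      refine ⟨one_ne_zero, ?_⟩
      norm_num
    obtain ⟨τ, hτ⟩ := hgen 1 h1
    obtain ⟨w, -, hw1, hw2⟩ := exists_place_pt K M L one_pos hτ
    rw [← hja] at hw1 hw2
    have h2 := ncard_zeros_eq (phi K M L) (hjtr 1) (hjfix 1) (hjL 1) _ hker hF hF' hw1
      (⊥ : Subgroup SL(2, ℤ)) (by
        intro c hc
        rw [Subgroup.mem_bot] at hc
        rw [hc, map_one, one_smul]) (by
        refine hw2.trans ?_
        rw [Subgroup.map_bot]
        simp)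
    replace h2 := h2.trans (card_orbitRel_bot (G := SL(2, ℤ)) (X := X N))
    have h3 := sum_zeros_ord (K := K) (transcendental_sub hjF 1)
    have hfin : (zeros (K := K) (jF - algebraMap K F 1)).Finite := finite_zeros_of_fnField _
    have h4 : ∑ᶠ v ∈ zeros (K := K) (jF - algebraMap K F 1), v.ord (jF - algebraMap K F 1) =
        ∑ᶠ v ∈ zeros (K := K) (jF - algebraMap K F 1), (1 : ℤ) :=
      finsum_mem_congr rfl (fun v hv => hunr 1 h1 v hv)
    rw [h4, finsum_mem_one_eq hfin, h2, adjoin_simple_sub] at h3
    exact_mod_cast h3.symm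
  -- conclusion
  obtain ⟨g, hg, hg2⟩ := exists_nat_genusFormula N
  have hcard : ({0, 1728} : Finset K).card = 2 := by
    apply Finset.card_pair
    norm_num
  have hgenus := genus_eq (K := K) hjF {0, 1728} hunr
  have hne : (0 : K) ≠ 1728 := by norm_num
  rw [Finset.sum_pair hne, h0, h1728, hinf, hdeg, hcard] at hgenus
  rw [hgenus, hg]
  have h5 : ((((2 : ℕ) : ℤ) - 1) * (Nat.card (X N) : ℤ) -
      ((orb (X N) (ModularGroup.S * ModularGroup.T) : ℤ) + (orb (X N) ModularGroup.S : ℤ)) -
      (orb (X N) ModularGroup.T : ℤ) + 2) = ((2 * g : ℕ) : ℤ) := by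
    have h6 := congrArg (Nat.cast : ℕ → ℤ) hg2
    push_cast at h6 ⊢
    linarith
  rw [h5, Int.toNat_natCast]
  simp

end

end Fermat.Agent.S24Lib
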