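import Fermat.Agent.FF.RingVal
import Fermat.Agent.ModFn.Orders

/-!
# The field of modular functions with its `SL(2, ℤ)`-action
-/

set_option autoImplicit false
set_option linter.unusedSectionVars false
set_option linter.style.haveILetI false

namespace Fermat.Agent.S24Lib

open UpperHalfPlane hiding I
open HahnSeries ModularCurve WithZero AlgebraicCurve IntermediateField
open scoped MatrixGroups Pointwise
open Fermat.Agent.ModFn Fermat.Agent.FF

section

variable (K : Type*) [Field K] [Algebra K ℂ] [IsAlgClosed K] (M : ℕ) [NeZero M]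

/-- the `q`-expansion on `modR` -/
noncomputable def qexpR : modR K M →ₐ[K] LaurentSeries K :=
  (qexp K M).comp (Subalgebra.inclusion (modR_le_expAlg (hasRoots_of_isAlgClosed K M)))

theorem qexpR_injective : Function.Injective (qexpR K M) :=
  (qexp_injective M).comp
    (Subalgebra.inclusion_injective (modR_le_expAlg (hasRoots_of_isAlgClosed K M)))

instance isDomain_modR : IsDomain (modR K M) :=
  (qexpR_injective K M).isDomain (qexpR K M)

end

section

variable (K : Type*) [Field K] [Algebra K ℂ] (M : ℕ) [NeZero M]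

/-- The action of `SL(2, ℤ)` on the ring of modular functions. -/
noncomputable def actR : SL(2, ℤ) →* (modR K M ≃ₐ[K] modR K M) where
  toFun γ :=
    { toFun := fun f => ⟨fun τ => f.1 (γ⁻¹ • τ), smul_mem_modR γ⁻¹ f.2⟩
      invFun := fun f => ⟨fun τ => f.1 (γ • τ), smul_mem_modR γ f.2⟩
      left_inv := fun f => Subtype.ext (funext fun τ => by simp)
      right_inv := fun f => Subtype.ext (funext fun τ => by simp)
      map_mul' := fun f g => rfl
      map_add' := fun f g => rfl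
      commutes' := fun c => rfl }
  map_one' := AlgEquiv.ext fun f => Subtype.ext (funext fun τ => by simp)
  map_mul' γ δ := AlgEquiv.ext fun f => Subtype.ext (funext fun τ => by
    change f.1 ((γ * δ)⁻¹ • τ) = f.1 (δ⁻¹ • γ⁻¹ • τ)
    rw [mul_inv_rev, mul_smul])

theorem actR_apply (γ : SL(2, ℤ)) (f : modR K M) (τ : ℍ) :
    (actR K M γ f : ℍ → ℂ) τ = (f : ℍ → ℂ) (γ⁻¹ • τ) := rfl

theorem mem_ker_actR {γ : SL(2, ℤ)} :
    γ ∈ (actR K M).ker ↔ ∀ f ∈ modR K M, ∀ τ : ℍ, f (γ⁻¹ • τ) = f τ := by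
  rw [MonoidHom.mem_ker]
  constructor
  · intro h f hf τ
    have h1 := congrArg (fun σ : modR K M ≃ₐ[K] modR K M => (σ ⟨f, hf⟩ : ℍ → ℂ) τ) h
    exact h1
  · intro h
    exact AlgEquiv.ext fun f => Subtype.ext (funext fun τ => h f f.2 τ)

theorem Gamma_le_ker : CongruenceSubgroup.Gamma M ≤ (actR K M).ker := by
  intro γ hγ
  rw [mem_ker_actR]
  intro f hf τ
  exact apply_smul_of_mem_Gamma (inv_mem hγ) hf τ

instance finite_range_actR : Finite (actR K M).range := by
  haveI : (CongruenceSubgroup.Gamma M).FiniteIndex := inferInstance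
  haveI : (actR K M).ker.FiniteIndex := Subgroup.finiteIndex_of_le (Gamma_le_ker K M)
  exact Finite.of_equiv _ (QuotientGroup.quotientKerEquivRange (actR K M)).toEquiv

theorem ker_le_Gamma0 : (actR K M).ker ≤ CongruenceSubgroup.Gamma0 M := by
  intro γ hγ
  rw [mem_ker_actR] at hγ
  have h := mem_Gamma0_of_jd_smul (N := M) (fun τ => hγ _ (jd_mem_modR dvd_rfl) τ)
  simpa using inv_mem h

/-- the element `j` -/
noncomputable def jR : modR K M := ⟨jH, jH_mem_modR M⟩

theorem actR_jR (γ : SL(2, ℤ)) : actR K M γ (jR K M) = jR K M :=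
  Subtype.ext (funext fun τ => jH_smul γ⁻¹ τ)

/-- the element `j(d τ)` -/
noncomputable def jdR (d : ℕ) [NeZero d] (h : d ∣ M) : modR K M := ⟨jd d, jd_mem_modR h⟩

theorem actR_jdR {N : ℕ} (d : ℕ) [NeZero d] (hdN : d ∣ N) (h : d ∣ M) {γ : SL(2, ℤ)}
    (hγ : γ ∈ CongruenceSubgroup.Gamma0 N) : actR K M γ (jdR K M d h) = jdR K M d h :=
  Subtype.ext (funext fun τ => jd_smul hdN (inv_mem hγ) τ)

theorem mem_Gamma0_of_actR_jdR {N : ℕ} [NeZero N] (h : N ∣ M) {γ : SL(2, ℤ)}
    (hγ : actR K M γ (jdR K M N h) = jdR K M N h) : γ ∈ CongruenceSubgroup.Gamma0 N := by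
  have h1 := mem_Gamma0_of_jd_smul (N := N) (γ := γ⁻¹)
    (fun τ => congrFun (congrArg Subtype.val hγ) τ)
  simpa using inv_mem h1

theorem actR_eq_one_of_smul_eq {γ : SL(2, ℤ)} (h : ∀ τ : ℍ, γ • τ = τ) : actR K M γ = 1 := by
  rw [← MonoidHom.mem_ker, mem_ker_actR]
  intro f _ τ
  rw [inv_smul_eq_iff.mpr (h τ).symm]

theorem mem_adjoin_jR [IsAlgClosed K] {f : modR K M} (hf : ∀ γ, actR K M γ f = f) :
    f ∈ Algebra.adjoin K {jR K M} := by
  have h1 : (f : ℍ → ℂ) ∈ Algebra.adjoin K {jH} := by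
    apply mem_adjoin_jH (hasRoots_of_isAlgClosed K M) f.2
    intro γ τ
    have := congrFun (congrArg Subtype.val (hf γ⁻¹)) τ
    change (f : ℍ → ℂ) (γ⁻¹⁻¹ • τ) = _ at this
    rwa [inv_inv] at this
  have h2 : (Algebra.adjoin K {jR K M}).map (modR K M).val = Algebra.adjoin K {jH} := by
    rw [AlgHom.map_adjoin, Set.image_singleton]
    rfl
  rw [← h2] at h1
  obtain ⟨g, hg, hgf⟩ := h1
  have : g = f := Subtype.ext hgf
  rwa [← this]

end

end Fermat.Agent.S24Lib
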