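import Fermat.Agent.S24Lib.Vals
import Fermat.Agent.Comb.GenusNonneg

/-!
# The Galois extension `L / K(j)` and its places
-/

set_option autoImplicit false
set_option linter.unusedSectionVars false
set_option linter.style.haveILetI false

namespace Fermat.Agent.S24Lib

open UpperHalfPlane hiding I
open HahnSeries ModularCurve WithZero AlgebraicCurve IntermediateField
open scoped MatrixGroups Pointwise Manifold
open Fermat.Agent.ModFn Fermat.Agent.FF

section General

variable {K L : Type*} [Field K] [Field L] [Algebra K L]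

theorem transcendental_of_valuation (ν : Valuation L ℤᵐ⁰)
    (hK : ∀ a : K, ν (algebraMap K L a) ≤ 1) {x : L} (hx : 1 < ν x) : Transcendental K x := by
  intro h
  have h1 : IsIntegral K x := h.isIntegral
  let V := ν.valuationSubring
  have hK' : ∀ a : K, algebraMap K L a ∈ V := hK
  letI : Algebra K V := ((algebraMap K L).codRestrict V.toSubring hK').toAlgebra
  haveI : IsScalarTower K V L := IsScalarTower.of_algebraMap_eq fun _ => rfl
  have h2 : IsIntegral V x := h1.tower_top
  obtain ⟨y, hy⟩ := IsIntegrallyClosed.isIntegral_iff.mp h2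
  have h3 : ν x ≤ 1 := by
    rw [← hy]
    exact y.2
  exact absurd hx (not_lt.mpr h3)

end General

variable (K : Type*) [Field K] [Algebra K ℂ] [IsAlgClosed K] (M : ℕ) [NeZero M]
variable (L : Type*) [Field L] [Algebra (modR K M) L] [IsFractionRing (modR K M) L]
  [Algebra K L] [IsScalarTower K (modR K M) L]

/-- The action of `SL(2, ℤ)` on the field of modular functions. -/
noncomputable def phi : SL(2, ℤ) →* (L ≃ₐ[K] L) := (fracAut K (modR K M) L).comp (actR K M)

theorem phi_apply (γ : SL(2, ℤ)) : phi K M L γ = fracAut K (modR K M) L (actR K M γ) := rfl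

theorem phi_algebraMap (γ : SL(2, ℤ)) (f : modR K M) :
    phi K M L γ (algebraMap (modR K M) L f) = algebraMap (modR K M) L (actR K M γ f) :=
  fracAut_algebraMap _ _

instance finite_range_phi : Finite (phi K M L).range := finite_range_comp (actR K M)

theorem mem_ker_phi {γ : SL(2, ℤ)} : γ ∈ (phi K M L).ker ↔ γ ∈ (actR K M).ker := by
  rw [MonoidHom.mem_ker, MonoidHom.mem_ker, phi_apply]
  constructor
  · intro h
    apply fracAut_injective (K := K) (R := modR K M) (L := L)
    rw [h, map_one]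
  · intro h
    rw [h, map_one]

theorem ker_phi_le : (phi K M L).ker ≤ CongruenceSubgroup.Gamma0 M := fun _ h =>
  ker_le_Gamma0 K M ((mem_ker_phi K M L).mp h)

/-- the function `j` in `L` -/
noncomputable def jL : L := algebraMap (modR K M) L (jR K M)

theorem phi_jL (γ : SL(2, ℤ)) : phi K M L γ (jL K M L) = jL K M L := by
  rw [jL, phi_algebraMap, actR_jR]

theorem mem_adjoin_jL {y : L} (hy : ∀ γ, phi K M L γ y = y) : y ∈ K⟮jL K M L⟯ :=
  mem_adjoin_of_fixed (actR K M) (fun _ hf => mem_adjoin_jR K M hf) hy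

/-- the valuation at infinity on `L` -/
noncomputable def nuInf : Valuation L ℤᵐ⁰ := extVal (vInf K M) eq_zero_of_vInf

theorem nuInf_algebraMap_le_one (a : K) : nuInf K M L (algebraMap K L a) ≤ 1 := by
  rw [IsScalarTower.algebraMap_apply K (modR K M) L, nuInf, extVal_algebraMap]
  exact vInf_algebraMap_le_one a

theorem nuInf_jL : nuInf K M L (jL K M L) = exp (M : ℤ) := by
  rw [jL, nuInf, extVal_algebraMap, vInf_jR]

theorem nuInf_phi (k : ℤ) (y : L) :
    nuInf K M L (phi K M L (ModularGroup.T ^ k) y) = nuInf K M L y :=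
  extVal_fracAut _ _ _ (vInf_T k) y

/-- the valuation at a point of the upper half plane on `L` -/
noncomputable def nuPt (τ : ℍ) : Valuation L ℤᵐ⁰ := extVal (vPt K M τ) (eq_zero_of_vPt τ)

theorem nuPt_algebraMap_le_one (τ : ℍ) (a : K) : nuPt K M L τ (algebraMap K L a) ≤ 1 := by
  rw [IsScalarTower.algebraMap_apply K (modR K M) L, nuPt, extVal_algebraMap]
  exact vPt_le_one τ _

theorem nuPt_phi {γ : SL(2, ℤ)} {τ : ℍ} (hγ : γ • τ = τ) (y : L) :
    nuPt K M L τ (phi K M L γ y) = nuPt K M L τ y :=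
  extVal_fracAut _ _ _ (vPt_actR hγ) y

theorem nuPt_jL_sub {τ : ℍ} {a : K} {n : ℕ}
    (h : ordAt (fun z => jH z - algebraMap K ℂ a) τ = n) :
    nuPt K M L τ (jL K M L - algebraMap K L a) = exp (-(n : ℤ)) := by
  rw [jL, IsScalarTower.algebraMap_apply K (modR K M) L, ← map_sub, nuPt, extVal_algebraMap]
  exact vPt_of_ordAt h

theorem transcendental_jL : Transcendental K (jL K M L) := by
  apply transcendental_of_valuation (nuInf K M L) (nuInf_algebraMap_le_one K M L)
  rw [nuInf_jL, ← exp_zero, exp_lt_exp]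
  exact_mod_cast Nat.pos_of_neZero M

include M in
theorem isFnField_L : IsFnField K L :=
  isFnField_of_invariants (phi K M L) (transcendental_jL K M L) (phi_jL K M L)
    (fun _ hy => mem_adjoin_jL K M L hy)

theorem charZero_K : CharZero K := (algebraMap K ℂ).charZero

section Places

variable [IsFnField K L] [CharZero K]

theorem exists_place_inf : ∃ w : Place K L, (∀ γ ∈ Subgroup.zpowers ModularGroup.T,
    phi K M L γ • w = w) ∧ 0 < w.ord (jL K M L)⁻¹ ∧ w.ord (jL K M L)⁻¹ ≤ M := by
  obtain ⟨w, hw, h1, h2⟩ := exists_place_of_valuation (nuInf K M L)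
    (nuInf_algebraMap_le_one K M L) (x := (jL K M L)⁻¹) (e := M)
    (by exact_mod_cast Nat.pos_of_neZero M) (by rw [map_inv₀, nuInf_jL, exp_neg])
  refine ⟨w, ?_, h1, h2⟩
  rintro _ ⟨k, rfl⟩
  exact smul_eq_of_valuation hw _ (nuInf_phi K M L k)

theorem exists_place_pt {τ : ℍ} {a : K} {n : ℕ} (hn : 0 < n)
    (h : ordAt (fun z => jH z - algebraMap K ℂ a) τ = n) :
    ∃ w : Place K L, (∀ γ : SL(2, ℤ), γ • τ = τ → phi K M L γ • w = w) ∧
      0 < w.ord (jL K M L - algebraMap K L a) ∧ w.ord (jL K M L - algebraMap K L a) ≤ n := by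
  obtain ⟨w, hw, h1, h2⟩ := exists_place_of_valuation (nuPt K M L τ)
    (nuPt_algebraMap_le_one K M L τ) (x := jL K M L - algebraMap K L a) (e := n)
    (by exact_mod_cast hn) (nuPt_jL_sub K M L h)
  refine ⟨w, ?_, h1, h2⟩
  intro γ hγ
  exact smul_eq_of_valuation hw _ (nuPt_phi K M L hγ)

end Places

section Orders

theorem le_card_T : M ≤ Nat.card ((Subgroup.zpowers ModularGroup.T).map (phi K M L)) := by
  rw [MonoidHom.map_zpowers, Nat.card_zpowers]
  have hfin : Finite (Subgroup.zpowers (phi K M L ModularGroup.T)) := by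
    have hle : Subgroup.zpowers (phi K M L ModularGroup.T) ≤ (phi K M L).range := by
      rw [Subgroup.zpowers_le]
      exact ⟨_, rfl⟩
    exact Finite.of_injective _ (Subgroup.inclusion_injective hle)
  have hpos : 0 < orderOf (phi K M L ModularGroup.T) := by
    rw [← Nat.card_zpowers]
    exact Nat.card_pos
  have h1 := pow_orderOf_eq_one (phi K M L ModularGroup.T)
  rw [← map_pow, ← MonoidHom.mem_ker, mem_ker_phi, mem_ker_actR] at h1
  have h2 := dvd_of_T_zpow_trivial (K := K) (M := M)
    (k := -(orderOf (phi K M L ModularGroup.T) : ℤ)) (by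
      intro f hf τ
      rw [zpow_neg, zpow_natCast]
      exact h1 f hf τ)
  rw [Int.dvd_neg] at h2
  exact Nat.le_of_dvd hpos (by exact_mod_cast h2)

theorem le_card_of_notMem {γ : SL(2, ℤ)} {n : ℕ}
    (h : ∀ k : ℕ, 0 < k → k < n → γ ^ k ∉ CongruenceSubgroup.Gamma0 M) :
    n ≤ Nat.card ((Subgroup.zpowers γ).map (phi K M L)) := by
  rw [MonoidHom.map_zpowers, Nat.card_zpowers]
  have hfin : Finite (Subgroup.zpowers (phi K M L γ)) := by
    have hle : Subgroup.zpowers (phi K M L γ) ≤ (phi K M L).range := by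
      rw [Subgroup.zpowers_le]
      exact ⟨_, rfl⟩
    exact Finite.of_injective _ (Subgroup.inclusion_injective hle)
  have hpos : 0 < orderOf (phi K M L γ) := by
    rw [← Nat.card_zpowers]
    exact Nat.card_pos
  by_contra hcon
  push Not at hcon
  apply h _ hpos hcon
  have h1 := pow_orderOf_eq_one (phi K M L γ)
  rw [← map_pow, ← MonoidHom.mem_ker] at h1
  exact ker_phi_le K M L h1

theorem notMem_Gamma0 {γ : SL(2, ℤ)} (hM : 2 ≤ M) (h : (γ 1 0).natAbs = 1) :
    γ ∉ CongruenceSubgroup.Gamma0 M := by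
  rw [CongruenceSubgroup.Gamma0_mem, ZMod.intCast_zmod_eq_zero_iff_dvd, ← Int.natAbs_dvd_natAbs,
    h, Int.natAbs_natCast, Nat.dvd_one]
  omega

theorem le_card_S (hM : 2 ≤ M) :
    2 ≤ Nat.card ((Subgroup.zpowers ModularGroup.S).map (phi K M L)) := by
  apply le_card_of_notMem
  intro k hk hk2
  obtain rfl : k = 1 := by omega
  apply notMem_Gamma0 M hM
  rw [pow_one]
  simp [ModularGroup.S]

omit [NeZero M] in
theorem mul_apply_11 (g h : SL(2, ℤ)) : (g * h) 1 1 = g 1 0 * h 0 1 + g 1 1 * h 1 1 := by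
  simp [Matrix.SpecialLinearGroup.coe_mul, Matrix.mul_apply, Fin.sum_univ_two]

theorem le_card_ST (hM : 2 ≤ M) :
    3 ≤ Nat.card ((Subgroup.zpowers (ModularGroup.S * ModularGroup.T)).map (phi K M L)) := by
  apply le_card_of_notMem
  intro k hk hk2
  obtain rfl | rfl : k = 1 ∨ k = 2 := by omega
  · apply notMem_Gamma0 M hM
    rw [pow_one, Gam0.mul_apply_10]
    simp [ModularGroup.S, ModularGroup.T]
  · apply notMem_Gamma0 M hM
    rw [pow_two]
    simp only [Gam0.mul_apply_10, Gam0.mul_apply_00, mul_apply_11]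
    simp [ModularGroup.S, ModularGroup.T]

end Orders

end Fermat.Agent.S24Lib
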