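import Fermat.Agent.S24Lib.Degree
import Fermat.Agent.JZ.ModularComm

/-!
# Structural facts on the function fields of `X₀(M)` (inputs of `Fermat.Agent.JZ`)
-/

set_option autoImplicit false

namespace Fermat.Agent.S24Lib

open ModularCurve Fermat.Agent.JZ

theorem coeffEmb_jq (K : Type*) [Field K] [Algebra ℚ K] : coeffEmb K jq = jqModC K := by
  have := coeffEmb_qExpand_jq K 1
  rwa [qExpand_one_apply, qExpand_one_apply] at this

theorem modularFieldInputs (K : Type) [Field K] [Algebra K ℂ] [IsAlgClosed K] [Algebra ℚ K] :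
    ModularFieldInputs K where
  fnField M _ := isFnField_laurentBaseChange K M
  relfinrank M _ := by
    rw [coeffEmb_jq]
    exact relfinrank_laurentBaseChange K M
  generation M _ := by
    rw [coeffEmb_jq, coeffEmb_qExpand_jq]
    exact (laurentBaseChange_eq_adjoin_pair K M).le

theorem modularFieldInputs_Qbar : ModularFieldInputs (AlgebraicClosure ℚ) := by
  have : Algebra.IsAlgebraic ℚ (AlgebraicClosure ℚ) := AlgebraicClosure.isAlgebraic ℚ
  let _ : Algebra (AlgebraicClosure ℚ) ℂ :=
    (IsAlgClosed.lift (R := ℚ) (S := AlgebraicClosure ℚ) (M := ℂ)).toRingHom.toAlgebra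
  exact modularFieldInputs (AlgebraicClosure ℚ)

end Fermat.Agent.S24Lib
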