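import Fermat.Agent.S24Lib.Action

/-!
# Valuations on the ring of modular functions
-/

set_option autoImplicit false
set_option linter.unusedSectionVars false
set_option linter.style.haveILetI false

namespace Fermat.Agent.S24Lib

open UpperHalfPlane hiding I
open HahnSeries ModularCurve WithZero AlgebraicCurve IntermediateField
open scoped MatrixGroups Pointwise Manifold
open Fermat.Agent.ModFn Fermat.Agent.FF

section OrdAt

/-- cast `ℕ∞ → WithTop ℤ` -/
def castE : ℕ∞ → WithTop ℤ := WithTop.map (Nat.cast : ℕ → ℤ)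

theorem castE_top : castE ⊤ = ⊤ := rfl

theorem castE_coe (n : ℕ) : castE (n : ℕ∞) = ((n : ℤ) : WithTop ℤ) := rfl

theorem castE_add (m n : ℕ∞) : castE (m + n) = castE m + castE n := by
  induction m using ENat.recTopCoe with
  | top => rw [top_add, castE_top, top_add]
  | coe m =>
    induction n using ENat.recTopCoe with
    | top => rw [add_top, castE_top, add_top]
    | coe n =>
      rw [← Nat.cast_add, castE_coe, castE_coe, castE_coe, ← WithTop.coe_add]
      push_cast
      rfl

theorem castE_le {m n : ℕ∞} (h : m ≤ n) : castE m ≤ castE n := by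
  induction n using ENat.recTopCoe with
  | top => rw [castE_top]; exact le_top
  | coe n =>
    induction m using ENat.recTopCoe with
    | top => simp at h
    | coe m =>
      rw [castE_coe, castE_coe, WithTop.coe_le_coe]
      exact_mod_cast h

theorem castE_eq_top {m : ℕ∞} : castE m = ⊤ ↔ m = ⊤ := by
  induction m using ENat.recTopCoe with
  | top => simp [castE_top]
  | coe m => simp [castE_coe]

theorem ordAt_comp_smul (f : ℍ → ℂ) (γ : SL(2, ℤ)) (τ : ℍ) :
    ordAt (fun z => f (γ • z)) τ = ordAt f (γ • τ) := by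
  have hg : (0 : ℝ) < ((γ : GL (Fin 2) ℝ)).val.det := by
    have h1 : ((γ : GL (Fin 2) ℝ)).val.det = 1 := by
      have h2 := congrArg (Int.cast : ℤ → ℝ) γ.2
      rw [Int.cast_det] at h2
      simpa using h2
    rw [h1]
    exact one_pos
  let G : ℂ → ℂ := fun z => (((γ : GL (Fin 2) ℝ) • ofComplex z : ℍ) : ℂ)
  have h1 : (fun z => f (γ • z)) ∘ ofComplex = (f ∘ ofComplex) ∘ G := by
    funext z
    simp [G]
  rw [ordAt, ordAt, h1, analyticOrderAt_comp_of_deriv_ne_zero]
  · congr 1
    simp [G]
  · exact τ.analyticAt_smul hg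
  · exact τ.deriv_smul_ne_zero hg

end OrdAt

section

variable (K : Type*) [Field K] [Algebra K ℂ] [IsAlgClosed K] (M : ℕ) [NeZero M]

theorem mdiff_modR (f : modR K M) : MDiff (f : ℍ → ℂ) :=
  mdiff_of_mem (modR_le_expAlg (hasRoots_of_isAlgClosed K M) f.2)

/-- The valuation at a point of the upper half plane. -/
noncomputable def vPt (τ : ℍ) : Valuation (modR K M) ℤᵐ⁰ :=
  valOf (fun f => castE (ordAt (f : ℍ → ℂ) τ))
    (by
      rw [castE_eq_top, ordAt_eq_top (mdiff_modR K M 0)]
      rfl)
    (by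
      have h : ordAt ((1 : modR K M) : ℍ → ℂ) τ = 0 := by
        rw [ordAt_eq_zero (mdiff_modR K M 1)]
        exact one_ne_zero
      rw [h]
      rfl)
    (fun f g => by
      rw [← castE_add, ← ordAt_mul (mdiff_modR K M f) (mdiff_modR K M g)]
      rfl)
    (fun f g => by
      have h := castE_le (ordAt_add_le (f := (f : ℍ → ℂ)) (g := (g : ℍ → ℂ)) τ)
      refine le_trans ?_ h
      rcases le_total (ordAt (f : ℍ → ℂ) τ) (ordAt (g : ℍ → ℂ) τ) with h1 | h1
      · rw [min_eq_left h1]; exact min_le_left _ _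
      · rw [min_eq_right h1]; exact min_le_right _ _)

variable {K M}

theorem vPt_apply (τ : ℍ) (f : modR K M) : vPt K M τ f = ev (castE (ordAt (f : ℍ → ℂ) τ)) := rfl

theorem eq_zero_of_vPt (τ : ℍ) (f : modR K M) (h : vPt K M τ f = 0) : f = 0 := by
  rw [vPt_apply, ev_eq_zero, castE_eq_top, ordAt_eq_top (mdiff_modR K M f)] at h
  exact Subtype.ext h

theorem vPt_le_one (τ : ℍ) (f : modR K M) : vPt K M τ f ≤ 1 := by
  rw [vPt_apply, ← ev_zero]
  apply ev_le
  have : castE 0 ≤ castE (ordAt (f : ℍ → ℂ) τ) := castE_le zero_le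
  exact this

theorem vPt_of_ordAt {τ : ℍ} {f : modR K M} {n : ℕ} (h : ordAt (f : ℍ → ℂ) τ = n) :
    vPt K M τ f = exp (-(n : ℤ)) := by
  rw [vPt_apply, h]
  rfl

theorem vPt_actR {γ : SL(2, ℤ)} {τ : ℍ} (hγ : γ • τ = τ) (f : modR K M) :
    vPt K M τ (actR K M γ f) = vPt K M τ f := by
  rw [vPt_apply, vPt_apply]
  congr 2
  have h := ordAt_comp_smul (f : ℍ → ℂ) γ⁻¹ τ
  rw [inv_smul_eq_iff.mpr hγ.symm] at h
  exact h

variable (K M)

theorem orderTop_eq_of_order_eq {x y : LaurentSeries K} (hx : x ≠ 0) (hy : y ≠ 0)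
    (h : x.order = y.order) : x.orderTop = y.orderTop := by
  rw [← order_eq_orderTop_of_ne_zero hx, ← order_eq_orderTop_of_ne_zero hy, h]

/-- The valuation at infinity. -/
noncomputable def vInf : Valuation (modR K M) ℤᵐ⁰ :=
  valOf (fun f => (qexpR K M f).orderTop)
    (by rw [map_zero, orderTop_zero])
    (by rw [map_one, orderTop_one])
    (fun f g => by rw [map_mul, orderTop_mul])
    (fun f g => by rw [map_add]; exact min_orderTop_le_orderTop_add)

variable {K M}

theorem vInf_apply (f : modR K M) : vInf K M f = ev ((qexpR K M f).orderTop) := rfl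

theorem eq_zero_of_vInf (f : modR K M) (h : vInf K M f = 0) : f = 0 := by
  rw [vInf_apply, ev_eq_zero, orderTop_eq_top] at h
  exact qexpR_injective K M (by rw [h, map_zero])

theorem vInf_algebraMap_le_one (a : K) : vInf K M (algebraMap K _ a) ≤ 1 := by
  rw [vInf_apply, AlgHom.commutes, algebraMap_laurentSeries_eq_single]
  rcases eq_or_ne a 0 with rfl | ha
  · simp
  · rw [orderTop_single ha]
    exact le_of_eq ev_zero

theorem vInf_T (k : ℤ) (f : modR K M) :
    vInf K M (actR K M (ModularGroup.T ^ k) f) = vInf K M f := by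
  rw [vInf_apply, vInf_apply]
  congr 1
  rcases eq_or_ne f 0 with rfl | hf
  · rw [map_zero]
  · apply orderTop_eq_of_order_eq
    · rw [ne_eq, map_eq_zero_iff _ (qexpR_injective K M)]
      simpa using hf
    · rw [ne_eq, map_eq_zero_iff _ (qexpR_injective K M)]
      exact hf
    · apply order_qexp_translate (hasRoots_of_isAlgClosed K M) (-k)
      intro τ
      change (f : ℍ → ℂ) ((ModularGroup.T ^ k)⁻¹ • τ) = (f : ℍ → ℂ) (ModularGroup.T ^ (-k) • τ)
      rw [zpow_neg]

theorem qexpR_jdR (d : ℕ) [NeZero d] (h : d ∣ M) :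
    qexpR K M (jdR K M d h) = qExpand K (M * d) (jqModC K) :=
  qexp_jd d _

theorem jdR_one : jdR K M 1 (one_dvd M) = jR K M := Subtype.ext jd_one

theorem qexpR_jR : qexpR K M (jR K M) = qExpand K M (jqModC K) := by
  rw [← jdR_one, qexpR_jdR]
  exact qExpand_congr (mul_one M) _

theorem vInf_jR : vInf K M (jR K M) = exp (M : ℤ) := by
  have h0 : qexpR K M (jR K M) ≠ 0 := by
    intro h
    have h1 := congrArg (fun φ : LaurentSeries K => φ.coeff (M * (-1))) h
    simp only [qexpR_jR, qExpand_coeff_mul, coeff_zero] at h1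
    have h2 : (jqModC K).coeff (-1) = 1 := by
      have := jqModC_pow_coeff_self (O := K) 1
      rw [pow_one] at this
      exact this
    rw [h2] at h1
    exact one_ne_zero h1
  rw [vInf_apply, ← order_eq_orderTop_of_ne_zero h0, qexpR_jR, order_qExpand, order_jqModC]
  change exp (-((M : ℤ) * (-1))) = exp (M : ℤ)
  congr 1
  ring

end

end Fermat.Agent.S24Lib
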